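import Fermat.Agent.S57.helper98_Homological
import Mathlib.RingTheory.Regular.Flat
import Mathlib.Algebra.Module.Torsion.Basic

set_option autoImplicit false

namespace Fermat.Agent.S57.helper98

open CategoryTheory IsLocalRing RingTheory.Sequence TensorProduct

section general

variable {A B : Type} [CommRing A] [CommRing B] (f : A →+* B)
  {N : Type} [AddCommGroup N] [Module B N] {d : ℕ} (b : Fin d → N)

/-- The additive map `c ↦ ∑ i, f (c i) • b i`. -/
noncomputable def coordHom : (Fin d → A) →+ N where
  toFun c := ∑ i, f (c i) • b i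
  map_zero' := by simp
  map_add' c c' := by simp [add_smul, Finset.sum_add_distrib]

lemma coordHom_apply (c : Fin d → A) : coordHom f b c = ∑ i, f (c i) • b i := rfl

lemma coordHom_smul (a : A) (c : Fin d → A) :
    coordHom f b (a • c) = f a • coordHom f b c := by
  simp [coordHom_apply, Finset.smul_sum, mul_smul]

variable {f b}

lemma coordHom_bijective
    (hspan : ∀ x : N, ∃ c : Fin d → A, x = ∑ i, f (c i) • b i)
    (hrel : ∀ c : Fin d → A, ∑ i, f (c i) • b i = 0 → c = 0) :
    Function.Bijective (coordHom f b) := by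
  constructor
  · rw [injective_iff_map_eq_zero]
    intro c hc
    exact hrel c hc
  · intro x
    obtain ⟨c, hc⟩ := hspan x
    exact ⟨c, hc.symm⟩

/-- The additive equivalence `(Fin d → A) ≃+ N`. -/
noncomputable def coordEquiv
    (hspan : ∀ x : N, ∃ c : Fin d → A, x = ∑ i, f (c i) • b i)
    (hrel : ∀ c : Fin d → A, ∑ i, f (c i) • b i = 0 → c = 0) : (Fin d → A) ≃+ N :=
  AddEquiv.ofBijective (coordHom f b) (coordHom_bijective hspan hrel)

lemma isWeaklyRegular_pi (rs : List A) (h : IsWeaklyRegular A rs) :
    IsWeaklyRegular (Fin d → A) rs := by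
  have h1 : IsWeaklyRegular (A ⊗[A] (Fin d → A)) rs := h.isWeaklyRegular_rTensor
  exact (LinearEquiv.isWeaklyRegular_congr (TensorProduct.lid A (Fin d → A)) rs).mp h1

lemma isWeaklyRegular_map_of_coord
    (hspan : ∀ x : N, ∃ c : Fin d → A, x = ∑ i, f (c i) • b i)
    (hrel : ∀ c : Fin d → A, ∑ i, f (c i) • b i = 0 → c = 0)
    (rs : List A) (h : IsWeaklyRegular A rs) :
    IsWeaklyRegular N (rs.map f) := by
  have h1 : IsWeaklyRegular (Fin d → A) rs := isWeaklyRegular_pi rs h
  refine (AddEquiv.isWeaklyRegular_congr (e := coordEquiv hspan hrel) ?_).mp h1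
  refine List.forall₂_map_right_iff.mpr <| List.forall₂_same.mpr fun r _ x => ?_
  exact coordHom_smul f b r x

lemma finite_of_coord
    (hspan : ∀ x : N, ∃ c : Fin d → A, x = ∑ i, f (c i) • b i) :
    Module.Finite B N := by
  refine Module.Finite.of_surjective (Fintype.linearCombination B b) ?_
  intro x
  obtain ⟨c, hc⟩ := hspan x
  refine ⟨fun i => f (c i), ?_⟩
  rw [hc, Fintype.linearCombination_apply]

end general

end Fermat.Agent.S57.helper98

namespace Fermat.Agent.S57.helper98

open CategoryTheory IsLocalRing RingTheory.Sequence TensorProduct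

section finlen

variable {A B : Type} [CommRing A] [CommRing B] {f : A →+* B}
  {N : Type} [AddCommGroup N] [Module B N] {d : ℕ} {b : Fin d → N}

lemma isArtinian_quot_of_coord [IsLocalRing A]
    (hspan : ∀ x : N, ∃ c : Fin d → A, x = ∑ i, f (c i) • b i)
    (rs : List A) (hrs : Ideal.ofList rs = maximalIdeal A) :
    IsArtinian B (N ⧸ Ideal.ofList (rs.map f) • (⊤ : Submodule B N)) := by
  set Q := N ⧸ Ideal.ofList (rs.map f) • (⊤ : Submodule B N) with hQ
  let _ : Algebra A B := f.toAlgebra
  let _ : Module A Q := Module.compHom Q f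
  have : IsScalarTower A B Q := IsScalarTower.of_algebraMap_smul (fun a q => rfl)
  have htors : Module.IsTorsionBySet A Q (maximalIdeal A : Set A) := by
    intro q a
    obtain ⟨a, ha⟩ := a
    change f a • q = 0
    obtain ⟨x, rfl⟩ := Submodule.Quotient.mk_surjective _ q
    rw [← Submodule.Quotient.mk_smul, Submodule.Quotient.mk_eq_zero]
    refine Submodule.smul_mem_smul ?_ Submodule.mem_top
    rw [← Ideal.map_ofList, hrs]
    exact Ideal.mem_map_of_mem f ha
  let _ : Module (A ⧸ maximalIdeal A) Q := htors.module
  have : Module.Finite A Q := by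
    refine Module.Finite.of_surjective
      (Fintype.linearCombination A (fun i => (Submodule.Quotient.mk (b i) : Q))) ?_
    intro q
    obtain ⟨x, rfl⟩ := Submodule.Quotient.mk_surjective _ q
    obtain ⟨c, hc⟩ := hspan x
    refine ⟨c, ?_⟩
    rw [hc, Fintype.linearCombination_apply]
    change _ = (Submodule.mkQ _) (∑ i, f (c i) • b i)
    rw [map_sum]
    rfl
  have : Module.Finite (A ⧸ maximalIdeal A) Q :=
    Module.Finite.of_restrictScalars_finite A _ Q
  let _ : Field (A ⧸ maximalIdeal A) := Ideal.Quotient.field _
  have : IsArtinian (A ⧸ maximalIdeal A) Q := inferInstance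
  have : IsArtinian A Q := isArtinian_of_surjective_algebraMap (R := A ⧸ maximalIdeal A)
    Ideal.Quotient.mk_surjective
  exact isArtinian_of_tower A this

end finlen

end Fermat.Agent.S57.helper98

namespace Fermat.Agent.S57.helper98

open CategoryTheory IsLocalRing RingTheory.Sequence TensorProduct

/-- Key abstract freeness criterion: if `N` is a `B`-module which is "free of finite rank over `A`
through `f : A → B`" (with `A`, `B` local, `B` Noetherian), the maximal ideal of `A` is generated
by a weakly regular sequence `rs` whose image lies in the maximal ideal of `B`, and the residue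
field of `B` has projective dimension at most the length of `rs`, then `N` is free over `B`. -/
theorem free_of_coord {A B : Type} [CommRing A] [CommRing B] [IsLocalRing A] [IsLocalRing B]
    [IsNoetherianRing B] (f : A →+* B) {N : Type} [AddCommGroup N] [Module B N] {d : ℕ}
    (b : Fin d → N)
    (hspan : ∀ x : N, ∃ c : Fin d → A, x = ∑ i, f (c i) • b i)
    (hrel : ∀ c : Fin d → A, ∑ i, f (c i) • b i = 0 → c = 0)
    (rs : List A) (hrs : Ideal.ofList rs = maximalIdeal A) (hreg : IsWeaklyRegular A rs)
    (hmem : ∀ x ∈ rs, f x ∈ maximalIdeal B)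
    (hk : HasProjectiveDimensionLE (ModuleCat.of B (B ⧸ maximalIdeal B)) rs.length) :
    Module.Free B N := by
  have hfin : Module.Finite B N := finite_of_coord hspan
  have hreg' : IsWeaklyRegular N (rs.map f) := isWeaklyRegular_map_of_coord hspan hrel rs hreg
  have hmem' : ∀ x ∈ rs.map f, x ∈ maximalIdeal B := by
    intro x hx
    obtain ⟨a, ha, rfl⟩ := List.mem_map.mp hx
    exact hmem a ha
  have hart : IsArtinian B (N ⧸ Ideal.ofList (rs.map f) • (⊤ : Submodule B N)) :=
    isArtinian_quot_of_coord hspan rs hrs
  have hfl : IsFiniteLength B (N ⧸ Ideal.ofList (rs.map f) • (⊤ : Submodule B N)) :=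
    isFiniteLength_iff_isNoetherian_isArtinian.mpr ⟨inferInstance, hart⟩
  refine free_of_isWeaklyRegular N (rs.map f) hreg' hmem' ?_ hfl
  rw [List.length_map]
  exact hk

end Fermat.Agent.S57.helper98

namespace Fermat.Agent.S57.helper98

open CategoryTheory IsLocalRing RingTheory.Sequence TensorProduct

/-- If the maximal ideal of a Noetherian local ring `B` is generated by a weakly regular
sequence `rs`, then the residue field has projective dimension at most `rs.length`. -/
theorem hasProjectiveDimensionLE_residue {B : Type} [CommRing B] [IsLocalRing B]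
    [IsNoetherianRing B] (rs : List B) (hreg : IsWeaklyRegular B rs)
    (hrs : Ideal.ofList rs = maximalIdeal B) :
    HasProjectiveDimensionLE (ModuleCat.of B (B ⧸ maximalIdeal B)) rs.length := by
  have hmem : ∀ x ∈ rs, x ∈ maximalIdeal B := by
    intro x hx
    rw [← hrs]
    exact Ideal.subset_span hx
  have hreg' : IsRegular B rs := IsRegular.of_isWeaklyRegular_of_mem_maximalIdeal B hmem hreg
  have h1 := ModuleCat.projectiveDimension_quotient_eq_length.{0} rs hreg'
  have e : Shrink.{0} (B ⧸ Ideal.ofList rs) ≃ₗ[B] (B ⧸ maximalIdeal B) :=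
    (Shrink.linearEquiv B (B ⧸ Ideal.ofList rs)).trans
      (Submodule.quotEquivOfEq _ _ hrs)
  rw [projectiveDimension_eq_of_iso e.toModuleIso] at h1
  rw [← projectiveDimension_le_iff, h1]

end Fermat.Agent.S57.helper98
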