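import Mathlib.RingTheory.MvPowerSeries.Basic
import Mathlib.RingTheory.MvPowerSeries.Inverse
import Mathlib.RingTheory.MvPowerSeries.Equiv
import Mathlib.RingTheory.Regular.RegularSequence
import Mathlib.RingTheory.DiscreteValuationRing.Basic

set_option autoImplicit false

namespace Fermat.Agent.S57.helper98

open MvPowerSeries RingTheory.Sequence IsLocalRing

section vanish

variable {σ : Type} {A : Type} [CommRing A]

/-- The ideal of power series all of whose monomials involve one of the variables in `l`. -/
def vanishIdeal (l : List σ) : Ideal (MvPowerSeries σ A) where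
  carrier := {f | ∀ m : σ →₀ ℕ, (∀ j ∈ l, m j = 0) → coeff m f = 0}
  zero_mem' := by intro m _; simp
  add_mem' := by
    intro f g hf hg m hm
    simp [hf m hm, hg m hm]
  smul_mem' := by
    classical
    intro c f hf m hm
    rw [smul_eq_mul, coeff_mul]
    refine Finset.sum_eq_zero ?_
    rintro ⟨p, q⟩ hpq
    rw [Finset.mem_antidiagonal] at hpq
    dsimp only at hpq
    have hq : ∀ j ∈ l, q j = 0 := by
      intro j hj
      have h1 := hm j hj
      rw [← hpq, Finsupp.add_apply] at h1
      omega
    rw [hf q hq, mul_zero]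

lemma mem_vanishIdeal {l : List σ} {f : MvPowerSeries σ A} :
    f ∈ vanishIdeal l ↔ ∀ m : σ →₀ ℕ, (∀ j ∈ l, m j = 0) → coeff m f = 0 := Iff.rfl

lemma X_mem_vanishIdeal {l : List σ} {s : σ} (hs : s ∈ l) :
    (X s : MvPowerSeries σ A) ∈ vanishIdeal l := by
  classical
  intro m hm
  rw [coeff_X, if_neg]
  intro h
  have := hm s hs
  rw [h] at this
  simp at this

lemma vanishIdeal_eq_ofList (l : List σ) :
    (vanishIdeal l : Ideal (MvPowerSeries σ A)) = Ideal.ofList (l.map X) := by
  classical
  induction l with
  | nil =>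
    rw [List.map_nil, Ideal.ofList_nil, eq_bot_iff]
    intro f hf
    rw [Ideal.mem_bot]
    ext m
    rw [coeff_zero]
    exact hf m (by simp)
  | cons s l ih =>
    rw [List.map_cons, Ideal.ofList_cons, ← ih]
    apply le_antisymm
    · intro f hf
      let g : MvPowerSeries σ A := fun m => if m s = 0 then coeff m f else 0
      have hg : g ∈ vanishIdeal l := by
        intro m hm
        change (if m s = 0 then coeff m f else 0) = 0
        split_ifs with h0
        · apply hf m
          intro j hj
          rcases List.mem_cons.mp hj with rfl | hj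
          · exact h0
          · exact hm j hj
        · rfl
      have hfg : f - g ∈ Ideal.span {(X s : MvPowerSeries σ A)} := by
        rw [Ideal.mem_span_singleton, X_dvd_iff]
        intro m hm
        rw [map_sub]
        change coeff m f - (if m s = 0 then coeff m f else 0) = 0
        rw [if_pos hm, sub_self]
      have : f = (f - g) + g := by ring
      rw [this]
      exact Submodule.add_mem_sup hfg hg
    · apply sup_le
      · rw [Ideal.span_singleton_le_iff_mem]
        exact X_mem_vanishIdeal (List.mem_cons_self)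
      · intro f hf m hm
        exact hf m (fun j hj => hm j (List.mem_cons_of_mem _ hj))

lemma X_mul_mem_vanishIdeal {l : List σ} {s : σ} (hs : s ∉ l) {f : MvPowerSeries σ A}
    (h : X s * f ∈ vanishIdeal l) : f ∈ vanishIdeal l := by
  classical
  intro m hm
  have h1 := h (Finsupp.single s 1 + m) (by
    intro j hj
    have hjs : j ≠ s := fun e => hs (e ▸ hj)
    simp [hm j hj, hjs.symm])
  rw [X_def, coeff_add_monomial_mul, one_mul] at h1
  exact h1

lemma isWeaklyRegular_X (l : List σ) (hl : l.Nodup) :
    IsWeaklyRegular (MvPowerSeries σ A) (l.map (X : σ → MvPowerSeries σ A)) := by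
  rw [isWeaklyRegular_iff]
  intro i hi
  rw [isSMulRegular_quotient_iff_mem_of_smul_mem]
  intro f hf
  rw [List.length_map] at hi
  have htake : (l.map (X : σ → MvPowerSeries σ A)).take i = (l.take i).map X := by
    rw [List.map_take]
  have hget : (l.map (X : σ → MvPowerSeries σ A))[i] = X (l[i]) := by
    simp
  rw [htake, smul_eq_mul, Ideal.mul_top, ← vanishIdeal_eq_ofList] at hf ⊢
  rw [hget, smul_eq_mul] at hf
  refine X_mul_mem_vanishIdeal ?_ hf
  intro hmem
  have hnd : (l.take i ++ l.drop i).Nodup := by rw [List.take_append_drop]; exact hl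
  have hdisj := List.disjoint_of_nodup_append hnd
  have hd : l[i] ∈ l.drop i := by
    rw [List.mem_iff_getElem]
    refine ⟨0, by simp; omega, by simp⟩
  exact hdisj hmem hd

end vanish

end Fermat.Agent.S57.helper98

namespace Fermat.Agent.S57.helper98

open MvPowerSeries RingTheory.Sequence IsLocalRing

section full

variable {σ : Type} {A : Type} [CommRing A]

lemma mem_vanishIdeal_of_forall_mem {l : List σ} (hl : ∀ s, s ∈ l) {f : MvPowerSeries σ A} :
    f ∈ vanishIdeal l ↔ constantCoeff f = 0 := by
  rw [mem_vanishIdeal, ← coeff_zero_eq_constantCoeff_apply]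
  constructor
  · intro h
    exact h 0 (by simp)
  · intro h m hm
    have : m = 0 := by
      ext j
      simpa using hm j (hl j)
    rw [this, h]

lemma isWeaklyRegular_X_append_C (l : List σ) (hl : l.Nodup) (hl' : ∀ s, s ∈ l) (ϖ : A)
    (hϖ : ∀ a : A, ϖ * a = 0 → a = 0) :
    IsWeaklyRegular (MvPowerSeries σ A) (l.map (X : σ → MvPowerSeries σ A) ++ [C ϖ]) := by
  rw [isWeaklyRegular_append_iff]
  refine ⟨isWeaklyRegular_X l hl, ?_⟩
  rw [isWeaklyRegular_singleton_iff, isSMulRegular_quotient_iff_mem_of_smul_mem]
  intro f hf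
  rw [smul_eq_mul, Ideal.mul_top, ← vanishIdeal_eq_ofList, mem_vanishIdeal_of_forall_mem hl']
    at hf ⊢
  rw [smul_eq_mul, map_mul, constantCoeff_C] at hf
  exact hϖ _ hf

lemma ofList_X_append_C_eq_maximalIdeal [IsLocalRing A] (l : List σ) (hl' : ∀ s, s ∈ l) (ϖ : A)
    (hϖ : maximalIdeal A = Ideal.span {ϖ}) :
    Ideal.ofList (l.map (X : σ → MvPowerSeries σ A) ++ [C ϖ]) =
      maximalIdeal (MvPowerSeries σ A) := by
  rw [Ideal.ofList_append, ← vanishIdeal_eq_ofList, Ideal.ofList_singleton]
  have hmem : ∀ f : MvPowerSeries σ A, f ∈ maximalIdeal (MvPowerSeries σ A) ↔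
      constantCoeff f ∈ maximalIdeal A := by
    intro f
    rw [mem_maximalIdeal, mem_maximalIdeal, mem_nonunits_iff, mem_nonunits_iff,
      isUnit_iff_constantCoeff]
  apply le_antisymm
  · apply sup_le
    · intro f hf
      rw [hmem, (mem_vanishIdeal_of_forall_mem hl').mp hf]
      exact Ideal.zero_mem _
    · rw [Ideal.span_singleton_le_iff_mem, hmem, constantCoeff_C, hϖ]
      exact Ideal.mem_span_singleton_self ϖ
  · intro f hf
    rw [hmem, hϖ, Ideal.mem_span_singleton] at hf
    obtain ⟨a, ha⟩ := hf
    have h1 : f - C (constantCoeff f) ∈ vanishIdeal l := by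
      rw [mem_vanishIdeal_of_forall_mem hl', map_sub, constantCoeff_C, sub_self]
    have h2 : C (constantCoeff f) ∈ Ideal.span {(C ϖ : MvPowerSeries σ A)} := by
      rw [Ideal.mem_span_singleton, ha, map_mul]
      exact dvd_mul_right _ _
    have : f = (f - C (constantCoeff f)) + C (constantCoeff f) := by ring
    rw [this]
    exact Submodule.add_mem_sup h1 h2

end full

end Fermat.Agent.S57.helper98
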