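import Mathlib.LinearAlgebra.Basis.Basic
import Mathlib.LinearAlgebra.FreeModule.Basic
import Mathlib.RingTheory.Ideal.Operations
import Mathlib.RingTheory.Ideal.Maps
import Mathlib.Algebra.Module.Torsion.Basic

set_option autoImplicit false

namespace Fermat.Agent.S57.helper98

open Module

section wiring

variable {T R : Type} [CommRing T] [CommRing R] {N M : Type} [AddCommGroup N] [Module T N]
  [AddCommGroup M] [Module R M]

lemma mem_smul_top_iff_repr {ι : Type} (e : Basis ι T N) (I : Ideal T) (x : N) :
    x ∈ I • (⊤ : Submodule T N) ↔ ∀ j, e.repr x j ∈ I := by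
  rw [← e.span_eq, Submodule.mem_ideal_smul_span_iff_exists_sum]
  constructor
  · rintro ⟨a, ha, rfl⟩ j
    have : (a.sum fun i c => c • e i) = Finsupp.linearCombination T e a := by
      rw [Finsupp.linearCombination_apply]
    rw [this, e.repr_linearCombination]
    exact ha j
  · intro h
    refine ⟨e.repr x, h, ?_⟩
    have : ((e.repr x).sum fun i c => c • e i) = Finsupp.linearCombination T e (e.repr x) := by
      rw [Finsupp.linearCombination_apply]
    rw [this, e.linearCombination_repr]

variable (ψ : T →+* R) (π : N →+ M)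

lemma map_linearCombination {ι : Type} (hπ : ∀ (f : T) (x : N), π (f • x) = ψ f • π x)
    (e : ι → N) (l : ι →₀ T) :
    π (Finsupp.linearCombination T e l) =
      Finsupp.linearCombination R (fun j => π (e j)) (Finsupp.mapRange ψ (map_zero ψ) l) := by
  rw [Finsupp.linearCombination_apply, Finsupp.linearCombination_apply, Finsupp.sum, map_sum,
    Finsupp.sum_mapRange_index (by intro a; simp)]
  rw [Finsupp.sum]
  refine Finset.sum_congr rfl ?_
  intro j _
  rw [hπ]

theorem free_and_ann_and_ker [Nontrivial M] [Module.Free T N]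
    (hψ : Function.Surjective ψ) (I : Ideal T) (hI : I ≤ RingHom.ker ψ)
    (hπ : ∀ (f : T) (x : N), π (f • x) = ψ f • π x) (hπs : Function.Surjective π)
    (hker : ∀ x, π x = 0 ↔ x ∈ I • (⊤ : Submodule T N)) :
    Module.Free R M ∧ Module.annihilator R M = ⊥ ∧ RingHom.ker ψ = I := by
  have hN : Nontrivial N := by
    obtain ⟨m, hm⟩ := exists_ne (0 : M)
    obtain ⟨x, rfl⟩ := hπs m
    refine ⟨x, 0, ?_⟩
    rintro rfl
    exact hm (map_zero π)
  let e := Module.Free.chooseBasis T N
  obtain ⟨j₀⟩ := e.index_nonempty
  -- key fact: an element of `T` whose image kills `π (e j₀)` lies in `I`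
  have key : ∀ f : T, ψ f • π (e j₀) = 0 → f ∈ I := by
    intro f hf
    rw [← hπ, hker, mem_smul_top_iff_repr e] at hf
    have := hf j₀
    rwa [map_smul, e.repr_self, Finsupp.smul_apply, Finsupp.single_eq_same, smul_eq_mul,
      mul_one] at this
  have hkerψ : RingHom.ker ψ = I := by
    apply le_antisymm _ hI
    intro f hf
    apply key
    rw [RingHom.mem_ker] at hf
    rw [hf, zero_smul]
  have hann : Module.annihilator R M = ⊥ := by
    rw [eq_bot_iff]
    intro a ha
    obtain ⟨f, rfl⟩ := hψ a
    rw [Module.mem_annihilator] at ha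
    have := hI (key f (ha _))
    rw [RingHom.mem_ker] at this
    rw [this]
    exact Ideal.zero_mem _
  refine ⟨?_, hann, hkerψ⟩
  -- freeness: the images of the basis vectors form a basis
  have hli : LinearIndependent R (fun j => π (e j)) := by
    rw [linearIndependent_iff]
    intro l hl
    obtain ⟨l', rfl⟩ := Finsupp.mapRange_surjective ψ (map_zero ψ) hψ l
    rw [← map_linearCombination ψ π hπ, hker, mem_smul_top_iff_repr e] at hl
    ext j
    have := hI (hl j)
    rw [e.repr_linearCombination, RingHom.mem_ker] at this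
    rw [Finsupp.mapRange_apply, this, Finsupp.zero_apply]
  have hsp : ⊤ ≤ Submodule.span R (Set.range fun j => π (e j)) := by
    intro m _
    obtain ⟨x, rfl⟩ := hπs m
    rw [← e.linearCombination_repr x, map_linearCombination ψ π hπ]
    rw [Finsupp.mem_span_range_iff_exists_finsupp]
    exact ⟨_, rfl⟩
  exact Module.Free.of_basis (Basis.mk hli hsp)

end wiring

end Fermat.Agent.S57.helper98
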