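import Mathlib.RingTheory.Regular.RegularSequence
import Mathlib.RingTheory.MvPowerSeries.Equiv
import Mathlib.RingTheory.MvPowerSeries.NoZeroDivisors
import Mathlib.RingTheory.MvPowerSeries.Inverse
import Mathlib.RingTheory.LocalRing.RingHom.Basic
import Mathlib.RingTheory.Flat.TorsionFree

/-!
# S57, part C1: a regular system of parameters of `𝒪⟦X₀,…,X_{r-1}⟧`

`paramList 𝒪 r ϖ = [X₀, …, X_{r-1}, C ϖ]` is a weakly regular sequence on the power series ring
(when `ϖ` is a nonzerodivisor) and generates its maximal ideal (when `(ϖ)` is the maximal ideal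
of the local ring `𝒪`).
-/

set_option autoImplicit false

namespace Fermat.Agent.S57

open RingTheory.Sequence IsLocalRing
open scoped Pointwise

section LemmaW

variable {B B' : Type*} [CommRing B] [CommRing B']

/-- A ring hom viewed as a semilinear map over itself. -/
def ringHomSemilinear (ε : B →+* B') : B →ₛₗ[ε] B' where
  toFun := ε
  map_add' := map_add ε
  map_smul' := fun a x => by simp

@[simp] lemma ringHomSemilinear_apply (ε : B →+* B') (x : B) : ringHomSemilinear ε x = ε x := rfl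

lemma smul_top_le_ker_ringHomSemilinear (ε : B →+* B') (y : B)
    (hker : RingHom.ker ε = Ideal.span {y}) :
    (y • (⊤ : Submodule B B)) ≤ LinearMap.ker (ringHomSemilinear ε) := by
  intro x hx
  obtain ⟨z, -, rfl⟩ := (Submodule.mem_smul_pointwise_iff_exists _ _ _).mp hx
  have hy : ε y = 0 := by
    have : y ∈ RingHom.ker ε := by rw [hker]; exact Ideal.mem_span_singleton_self y
    exact this
  simp [hy]

/-- The semilinear map `QuotSMulTop y B → B'` induced by a ring hom killing `y`. -/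
noncomputable def quotSMulTopLift (ε : B →+* B') (y : B)
    (hker : RingHom.ker ε = Ideal.span {y}) : QuotSMulTop y B →ₛₗ[ε] B' :=
  Submodule.liftQ _ (ringHomSemilinear ε) (smul_top_le_ker_ringHomSemilinear ε y hker)

lemma quotSMulTopLift_mk (ε : B →+* B') (y : B)
    (hker : RingHom.ker ε = Ideal.span {y}) (x : B) :
    quotSMulTopLift ε y hker (Submodule.Quotient.mk x) = ε x := rfl

lemma quotSMulTopLift_bijective (ε : B →+* B') (hε : Function.Surjective ε) (y : B)
    (hker : RingHom.ker ε = Ideal.span {y}) :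
    Function.Bijective (quotSMulTopLift ε y hker) := by
  constructor
  · rw [injective_iff_map_eq_zero]
    intro x hx
    induction x using Submodule.Quotient.induction_on with | _ x
    rw [quotSMulTopLift_mk] at hx
    have hx' : x ∈ Ideal.span {y} := by rw [← hker]; exact hx
    obtain ⟨z, rfl⟩ := Ideal.mem_span_singleton'.mp hx'
    rw [Submodule.Quotient.mk_eq_zero]
    rw [Submodule.mem_smul_pointwise_iff_exists]
    exact ⟨z, trivial, by simp [mul_comm]⟩
  · intro b
    obtain ⟨a, rfl⟩ := hε b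
    exact ⟨Submodule.Quotient.mk a, rfl⟩

/-- The additive equivalence `QuotSMulTop y B ≃+ B'` induced by a surjective ring hom with
kernel `(y)`. -/
noncomputable def quotSMulTopAddEquiv (ε : B →+* B') (hε : Function.Surjective ε) (y : B)
    (hker : RingHom.ker ε = Ideal.span {y}) : QuotSMulTop y B ≃+ B' :=
  AddEquiv.ofBijective (quotSMulTopLift ε y hker).toAddMonoidHom
    (quotSMulTopLift_bijective ε hε y hker)

lemma quotSMulTopAddEquiv_smul (ε : B →+* B') (hε : Function.Surjective ε) (y : B)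
    (hker : RingHom.ker ε = Ideal.span {y}) (a : B) (x : QuotSMulTop y B) :
    quotSMulTopAddEquiv ε hε y hker (a • x) = ε a • quotSMulTopAddEquiv ε hε y hker x := by
  change quotSMulTopLift ε y hker (a • x) = ε a • quotSMulTopLift ε y hker x
  exact map_smulₛₗ _ a x

/-- Lifting weakly regular sequences along a surjection with principal kernel generated by a
regular element. -/
theorem isWeaklyRegular_cons_of_surjective (ε : B →+* B') (hε : Function.Surjective ε) (y : B)
    (hker : RingHom.ker ε = Ideal.span {y}) (hy : IsSMulRegular B y)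
    (as : List B) (bs : List B') (hab : as.map ε = bs) (hbs : IsWeaklyRegular B' bs) :
    IsWeaklyRegular B (y :: as) := by
  rw [isWeaklyRegular_cons_iff]
  refine ⟨hy, ?_⟩
  refine (AddEquiv.isWeaklyRegular_congr (e := quotSMulTopAddEquiv ε hε y hker) ?_).mpr hbs
  subst hab
  rw [List.forall₂_map_right_iff]
  exact List.forall₂_same.mpr fun a _ x => quotSMulTopAddEquiv_smul ε hε y hker a x

/-- Lifting generators of the maximal ideal along a surjection with principal kernel. -/
theorem ofList_cons_eq_maximalIdeal_of_surjective [IsLocalRing B] [IsLocalRing B']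
    (ε : B →+* B') (hε : Function.Surjective ε) (y : B)
    (hker : RingHom.ker ε = Ideal.span {y})
    (as : List B) (bs : List B') (hab : as.map ε = bs)
    (hbs : Ideal.ofList bs = maximalIdeal B') :
    Ideal.ofList (y :: as) = maximalIdeal B := by
  have h1 : (maximalIdeal B').comap ε = maximalIdeal B := by
    have : IsLocalHom ε := hε.isLocalHom
    exact IsLocalRing.maximalIdeal_comap ε
  rw [← h1, ← hbs, ← hab, ← Ideal.map_ofList, Ideal.comap_map_of_surjective ε hε,
    Ideal.ofList_cons, sup_comm]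
  congr 1
  rw [← hker]
  rfl

end LemmaW

end Fermat.Agent.S57

namespace Fermat.Agent.S57

open RingTheory.Sequence IsLocalRing
open scoped Pointwise

section PowerSeriesPart

variable (𝒪 : Type*) [CommRing 𝒪]

/-- The ring hom `𝒪⟦X₀,…,X_r⟧ → 𝒪⟦X₀,…,X_{r-1}⟧` setting `X₀ = 0` and `X_{j+1} ↦ X_j`. -/
noncomputable def epsHom (r : ℕ) :
    MvPowerSeries (Fin (r + 1)) 𝒪 →+* MvPowerSeries (Fin r) 𝒪 :=
  (PowerSeries.constantCoeff (R := MvPowerSeries (Fin r) 𝒪)).comp
    (MvPowerSeries.finSuccEquiv 𝒪 r : MvPowerSeries (Fin (r + 1)) 𝒪 →+*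
      PowerSeries (MvPowerSeries (Fin r) 𝒪))

lemma epsHom_apply (r : ℕ) (f : MvPowerSeries (Fin (r + 1)) 𝒪) :
    epsHom 𝒪 r f = PowerSeries.constantCoeff (MvPowerSeries.finSuccEquiv 𝒪 r f) := rfl

lemma epsHom_surjective (r : ℕ) : Function.Surjective (epsHom 𝒪 r) := by
  intro g
  refine ⟨(MvPowerSeries.finSuccEquiv 𝒪 r).symm (PowerSeries.C g), ?_⟩
  simp [epsHom_apply]

lemma epsHom_X_succ (r : ℕ) (j : Fin r) :
    epsHom 𝒪 r (MvPowerSeries.X j.succ) = MvPowerSeries.X j := by
  simp [epsHom_apply, MvPowerSeries.finSuccEquiv_X_succ]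

lemma epsHom_C (r : ℕ) (a : 𝒪) :
    epsHom 𝒪 r (MvPowerSeries.C a) = MvPowerSeries.C a := by
  simp [epsHom_apply, MvPowerSeries.finSuccEquiv_C]

lemma ker_epsHom (r : ℕ) :
    RingHom.ker (epsHom 𝒪 r) = Ideal.span {(MvPowerSeries.X 0 : MvPowerSeries (Fin (r + 1)) 𝒪)} := by
  ext f
  rw [RingHom.mem_ker, epsHom_apply, ← PowerSeries.X_dvd_iff, Ideal.mem_span_singleton,
    ← MvPowerSeries.finSuccEquiv_X_zero]
  constructor
  · rintro ⟨g, hg⟩
    refine ⟨(MvPowerSeries.finSuccEquiv 𝒪 r).symm g, ?_⟩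
    apply (MvPowerSeries.finSuccEquiv 𝒪 r).injective
    rw [hg, map_mul, AlgEquiv.apply_symm_apply]
  · rintro ⟨g, rfl⟩
    exact ⟨MvPowerSeries.finSuccEquiv 𝒪 r g, map_mul _ _ _⟩

/-- The candidate regular system of parameters `[X₀, …, X_{r-1}, C ϖ]`. -/
noncomputable def paramList (r : ℕ) (ϖ : 𝒪) : List (MvPowerSeries (Fin r) 𝒪) :=
  List.ofFn (fun i : Fin r => (MvPowerSeries.X i : MvPowerSeries (Fin r) 𝒪)) ++
    [MvPowerSeries.C ϖ]

lemma paramList_length (r : ℕ) (ϖ : 𝒪) : (paramList 𝒪 r ϖ).length = r + 1 := by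
  simp [paramList]

lemma paramList_succ (r : ℕ) (ϖ : 𝒪) :
    paramList 𝒪 (r + 1) ϖ = MvPowerSeries.X 0 ::
      (List.ofFn (fun i : Fin r => (MvPowerSeries.X i.succ : MvPowerSeries (Fin (r + 1)) 𝒪)) ++
        [MvPowerSeries.C ϖ]) := by
  simp [paramList, List.ofFn_succ]

lemma map_epsHom_tail (r : ℕ) (ϖ : 𝒪) :
    (List.ofFn (fun i : Fin r => (MvPowerSeries.X i.succ : MvPowerSeries (Fin (r + 1)) 𝒪)) ++
        [MvPowerSeries.C ϖ]).map (epsHom 𝒪 r) = paramList 𝒪 r ϖ := by
  simp [paramList, List.map_ofFn, Function.comp_def, epsHom_X_succ, epsHom_C]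

theorem paramList_isWeaklyRegular (r : ℕ) (ϖ : 𝒪) (hϖ : ϖ ∈ nonZeroDivisors 𝒪) :
    IsWeaklyRegular (MvPowerSeries (Fin r) 𝒪) (paramList 𝒪 r ϖ) := by
  induction r with
  | zero =>
    simp only [paramList, List.ofFn_zero, List.nil_append]
    rw [isWeaklyRegular_singleton_iff]
    apply Module.Flat.isSMulRegular_of_nonZeroDivisors
    apply MvPowerSeries.mem_nonZeroDivisors_of_constantCoeff
    simpa using hϖ
  | succ r ih =>
    rw [paramList_succ]
    refine isWeaklyRegular_cons_of_surjective (epsHom 𝒪 r) (epsHom_surjective 𝒪 r) _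
      (ker_epsHom 𝒪 r) ?_ _ _ (map_epsHom_tail 𝒪 r ϖ) ih
    exact Module.Flat.isSMulRegular_of_nonZeroDivisors MvPowerSeries.X_mem_nonzeroDivisors

theorem paramList_ofList_eq_maximalIdeal [IsLocalRing 𝒪] (r : ℕ) (ϖ : 𝒪)
    (hϖ : maximalIdeal 𝒪 = Ideal.span {ϖ}) :
    Ideal.ofList (paramList 𝒪 r ϖ) = maximalIdeal (MvPowerSeries (Fin r) 𝒪) := by
  induction r with
  | zero =>
    simp only [paramList, List.ofFn_zero, List.nil_append, Ideal.ofList_singleton]
    ext f
    rw [Ideal.mem_span_singleton, IsLocalRing.mem_maximalIdeal, mem_nonunits_iff,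
      MvPowerSeries.isUnit_iff_constantCoeff, ← mem_nonunits_iff, ← IsLocalRing.mem_maximalIdeal,
      hϖ, Ideal.mem_span_singleton]
    have hf : f = MvPowerSeries.C (MvPowerSeries.constantCoeff f) := by
      ext x
      have : x = 0 := Subsingleton.elim _ _
      subst this
      simp
    constructor
    · rintro ⟨g, hg⟩
      refine ⟨MvPowerSeries.constantCoeff g, ?_⟩
      rw [hg]; simp
    · rintro ⟨c, hc⟩
      refine ⟨MvPowerSeries.C c, ?_⟩
      rw [hf, hc, map_mul]
  | succ r ih =>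
    rw [paramList_succ]
    exact ofList_cons_eq_maximalIdeal_of_surjective (epsHom 𝒪 r) (epsHom_surjective 𝒪 r) _
      (ker_epsHom 𝒪 r) _ _ (map_epsHom_tail 𝒪 r ϖ) ih

end PowerSeriesPart

end Fermat.Agent.S57
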