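import Mathlib

set_option autoImplicit false

open CategoryTheory Abelian IsLocalRing Module RingTheory.Sequence

namespace Fermat.Agent.S57.helper69

universe u

section FiniteLength

variable {B : Type u} [CommRing B] [IsLocalRing B]

/-- Over a local ring, a finite length module has projective dimension at most that of the
residue field. -/
lemma hasProjectiveDimensionLT_of_isFiniteLength (n : ℕ)
    (hk : HasProjectiveDimensionLT (ModuleCat.of B (B ⧸ maximalIdeal B)) n)
    (L : Type u) [AddCommGroup L] [Module B L] (hL : IsFiniteLength B L) :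
    HasProjectiveDimensionLT (ModuleCat.of B L) n := by
  induction hL with
  | of_subsingleton =>
    rename_i M _ _ _
    have h0 : Limits.IsZero (ModuleCat.of B M) := ModuleCat.isZero_of_subsingleton _
    have := h0.hasProjectiveDimensionLT_zero
    exact hasProjectiveDimensionLT_of_ge (ModuleCat.of B M) 0 n (Nat.zero_le n)
  | of_simple_quotient h ih =>
    rename_i M _ _ N' hs
    obtain ⟨m, hm, ⟨e⟩⟩ := isSimpleModule_iff_quot_maximal.mp hs
    have hmm : m = maximalIdeal B := IsLocalRing.eq_maximalIdeal hm
    subst hmm
    have h3 : HasProjectiveDimensionLT (ModuleCat.of B (M ⧸ N')) n :=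
      hasProjectiveDimensionLT_of_iso (e.symm.toModuleIso) n
    have hS := LinearMap.shortExact_shortComplexKer (Submodule.mkQ_surjective N')
    have h1 : HasProjectiveDimensionLT (ModuleCat.of B (LinearMap.ker (Submodule.mkQ N'))) n :=
      hasProjectiveDimensionLT_of_iso
        ((LinearEquiv.ofEq _ _ (Submodule.ker_mkQ N').symm).toModuleIso) n
    exact hS.hasProjectiveDimensionLT_X₂ n h1 h3

end FiniteLength

section Core

variable {B : Type} [CommRing B] [IsLocalRing B] [IsNoetherianRing B]

theorem free_of_regular_of_finiteLength
    (ys : List B) (hys : IsRegular B ys) (hmax : Ideal.ofList ys = maximalIdeal B)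
    {N : Type} [AddCommGroup N] [Module B N] [Module.Finite B N]
    (xs : List B) (hxs : IsRegular N xs) (hlen : xs.length = ys.length)
    (hfl : IsFiniteLength B (N ⧸ Ideal.ofList xs • (⊤ : Submodule B N))) :
    Module.Free B N := by
  -- projective dimension of the residue field
  have hk : projectiveDimension (ModuleCat.of B (B ⧸ maximalIdeal B)) = ys.length := by
    have := ModuleCat.projectiveDimension_quotient_eq_length.{0} ys hys
    rw [← this, hmax]
    exact projectiveDimension_eq_of_iso ((Shrink.linearEquiv B (B ⧸ maximalIdeal B)).symm.toModuleIso)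
  have hkLT : HasProjectiveDimensionLT (ModuleCat.of B (B ⧸ maximalIdeal B)) (ys.length + 1) := by
    have : projectiveDimension (ModuleCat.of B (B ⧸ maximalIdeal B)) ≤ (ys.length : ℕ) := hk.le
    exact (projectiveDimension_le_iff _ _).mp this
  -- the quotient has projective dimension `≤ n`
  have hq := hasProjectiveDimensionLT_of_isFiniteLength (ys.length + 1) hkLT _ hfl
  have hq' : projectiveDimension (ModuleCat.of B (N ⧸ Ideal.ofList xs • (⊤ : Submodule B N)))
      ≤ (ys.length : ℕ) := (projectiveDimension_le_iff _ _).mpr hq
  -- `N` is nontrivial and `xs` lies in the maximal ideal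
  have hne : Ideal.ofList xs ≠ ⊤ := by
    intro h
    apply hxs.top_ne_smul
    rw [h, Submodule.top_smul]
  have hNnt : Nontrivial N := by
    by_contra hN
    rw [not_nontrivial_iff_subsingleton] at hN
    exact hxs.top_ne_smul (Subsingleton.elim _ _)
  have hmem : ∀ r ∈ xs, r ∈ maximalIdeal B := by
    intro r hr
    apply IsLocalRing.le_maximalIdeal hne
    exact Ideal.subset_span hr
  have hpd := ModuleCat.projectiveDimension_quotient_eq_add_length_of_isWeaklyRegular
    (ModuleCat.of B N) xs hxs.toIsWeaklyRegular hmem
  rw [hpd, hlen] at hq'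
  -- hence `N` has projective dimension `≤ 0`
  have h0 : projectiveDimension (ModuleCat.of B N) ≤ ((0 : ℕ) : WithBot ℕ∞) := by
    have h1 : projectiveDimension (ModuleCat.of B N) + (ys.length : ℕ)
        ≤ ((0 : ℕ) : WithBot ℕ∞) + (ys.length : ℕ) := by
      simpa using hq'
    exact (ENat.WithBot.add_le_add_natCast_right_iff).mp h1
  have hproj : Projective (ModuleCat.of B N) := by
    rw [projective_iff_hasProjectiveDimensionLE_zero]
    exact (projectiveDimension_le_iff _ _).mp h0
  have : Module.Projective B N := by
    rw [IsProjective.iff_projective]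
    exact hproj
  exact Module.free_of_flat_of_isLocalRing

end Core

end Fermat.Agent.S57.helper69
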