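import Mathlib.RingTheory.Regular.ProjectiveDimension
import Mathlib.RingTheory.FiniteLength
import Mathlib.RingTheory.LocalRing.Module

set_option autoImplicit false

namespace Fermat.Agent.S57.helper98

open CategoryTheory IsLocalRing RingTheory.Sequence

/-- Over a local ring, a module of finite length has projective dimension at most that of the
residue field. -/
theorem hasProjectiveDimensionLE_of_isFiniteLength {B : Type} [CommRing B] [IsLocalRing B] (n : ℕ)
    (hk : HasProjectiveDimensionLE (ModuleCat.of B (B ⧸ maximalIdeal B)) n)
    (L : Type) [AddCommGroup L] [Module B L] (h : IsFiniteLength B L) :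
    HasProjectiveDimensionLE (ModuleCat.of B L) n := by
  induction h with
  | of_subsingleton =>
    rename_i M _ _ _
    have hz : Limits.IsZero (ModuleCat.of B M) := ModuleCat.isZero_of_subsingleton _
    have := hz.hasProjectiveDimensionLT_zero
    exact hasProjectiveDimensionLT_of_ge _ 0 _ (Nat.zero_le _)
  | of_simple_quotient _ ih =>
    rename_i M _ _ L' hs _
    obtain ⟨m, hm, ⟨e⟩⟩ := isSimpleModule_iff_quot_maximal.mp hs
    rw [eq_maximalIdeal hm] at e
    have h3 : HasProjectiveDimensionLE (ModuleCat.of B (M ⧸ L')) n :=
      hasProjectiveDimensionLT_of_iso (e.symm.toModuleIso) (n + 1)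
    have hS : (L'.mkQ).shortComplexKer.ShortExact :=
      LinearMap.shortExact_shortComplexKer (Submodule.mkQ_surjective L')
    have h1 : HasProjectiveDimensionLE (ModuleCat.of B (LinearMap.ker L'.mkQ)) n := by
      have e1 : L' ≃ₗ[B] LinearMap.ker L'.mkQ := LinearEquiv.ofEq _ _ (Submodule.ker_mkQ L').symm
      exact hasProjectiveDimensionLT_of_iso (e1.toModuleIso) (n + 1)
    exact hS.hasProjectiveDimensionLT_X₂ (n + 1) h1 h3

end Fermat.Agent.S57.helper98

namespace Fermat.Agent.S57.helper98

open CategoryTheory IsLocalRing RingTheory.Sequence

/-- A finite module over a Noetherian local ring `B` admitting a weakly regular sequence in the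
maximal ideal whose length bounds the projective dimension of the residue field, and such that
the quotient by the sequence has finite length, is free. -/
theorem free_of_isWeaklyRegular {B : Type} [CommRing B] [IsLocalRing B] [IsNoetherianRing B]
    (N : Type) [AddCommGroup N] [Module B N] [Module.Finite B N]
    (rs : List B) (hreg : IsWeaklyRegular N rs) (hmem : ∀ x ∈ rs, x ∈ maximalIdeal B)
    (hk : HasProjectiveDimensionLE (ModuleCat.of B (B ⧸ maximalIdeal B)) rs.length)
    (hfl : IsFiniteLength B (N ⧸ Ideal.ofList rs • (⊤ : Submodule B N))) :
    Module.Free B N := by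
  rcases subsingleton_or_nontrivial N with hN | hN
  · exact Module.Free.of_subsingleton B N
  have hQ := hasProjectiveDimensionLE_of_isFiniteLength rs.length hk _ hfl
  have key := ModuleCat.projectiveDimension_quotient_eq_add_length_of_isWeaklyRegular
    (ModuleCat.of B N) rs hreg hmem
  rw [← projectiveDimension_le_iff] at hQ
  rw [key] at hQ
  have h0 : projectiveDimension (ModuleCat.of B N) ≤ (0 : ℕ) := by
    have : projectiveDimension (ModuleCat.of B N) + (rs.length : ℕ) ≤ ((0 : ℕ) : WithBot ℕ∞) + (rs.length : ℕ) := by
      simpa using hQ
    exact (ENat.WithBot.add_le_add_natCast_right_iff).mp this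
  rw [projectiveDimension_le_iff] at h0
  have hproj : Projective (ModuleCat.of B N) :=
    (projective_iff_hasProjectiveDimensionLE_zero _).mpr h0
  have hproj' : Module.Projective B N := by
    rw [← IsProjective.iff_projective] at hproj
    exact hproj
  exact Module.free_of_flat_of_isLocalRing

end Fermat.Agent.S57.helper98
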